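import Mathlib
import Fermat.Agent.S21.IntA
import Fermat.Agent.S21.Partition

/-!
# S31 / SS (helper862) — a `Γ₀(N)`-partition weight on the upper half plane

`wt N : ℍ → ℝ` is nonnegative, continuous, integrable for the invariant measure of `ℍ`, and
`∑_{γ ∈ Γ₀(N)} wt N (γ • z) = 1` for every `z`.
-/

set_option autoImplicit false

open UpperHalfPlane CongruenceSubgroup MeasureTheory
open scoped MatrixGroups ENNReal NNReal

namespace Fermat.Agent.S31.H862

/-- A chosen `SL(2,ℤ)`-partition of unity. -/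
noncomputable def chiBase : ℂ → ℝ := Classical.choose Fermat.Agent.S21.exists_partition_SL2Z

theorem isPartition_chiBase : Fermat.Agent.S21.IsSL2ZPartition chiBase := by
  obtain ⟨h1, h2, h3, h4, h5⟩ := Classical.choose_spec Fermat.Agent.S21.exists_partition_SL2Z
  exact ⟨h1, h2, h3, h4, h5⟩

/-- The weight function on `ℍ`. -/
noncomputable def wt (N : ℕ) (z : ℍ) : ℝ := Fermat.Agent.S21.chi N chiBase (z : ℂ)

theorem mob_coe_eq (g : SL(2, ℤ)) (z : ℍ) :
    Fermat.Agent.S21.mob g (z : ℂ) = ((g • z : ℍ) : ℂ) := by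
  simp [Fermat.Agent.S21.mob]

theorem wt_smul_eq (N : ℕ) (γ : SL(2, ℤ)) (z : ℍ) :
    wt N (γ • z) = Fermat.Agent.S21.chi N chiBase (Fermat.Agent.S21.mob γ (z : ℂ)) := by
  rw [wt, mob_coe_eq]

section

variable (N : ℕ) [NeZero N]

theorem wt_nonneg (z : ℍ) : 0 ≤ wt N z :=
  Fermat.Agent.S21.chi_nonneg N isPartition_chiBase _

theorem wt_le_one (z : ℍ) : wt N z ≤ 1 :=
  Fermat.Agent.S21.chi_le_one N isPartition_chiBase _

theorem continuous_wt : Continuous (wt N) := by
  have h := Fermat.Agent.S21.continuousOn_chi N isPartition_chiBase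
  exact h.comp_continuous continuous_coe fun z => z.im_pos

theorem finite_support_wt (z : ℍ) :
    (Function.support fun γ : Gamma0 N => wt N ((γ : SL(2, ℤ)) • z)).Finite := by
  have h := Fermat.Agent.S21.chi_locfin N isPartition_chiBase {(z : ℂ)} isCompact_singleton
    (by
      intro w hw
      rw [Set.mem_singleton_iff] at hw
      subst hw
      exact z.im_pos)
  refine h.subset fun γ hγ => ⟨(z : ℂ), rfl, ?_⟩
  rw [← wt_smul_eq]
  exact hγ

theorem hasSum_wt (z : ℍ) : HasSum (fun γ : Gamma0 N => wt N ((γ : SL(2, ℤ)) • z)) 1 := by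
  classical
  have hfin := finite_support_wt N z
  have h1 := Fermat.Agent.S21.chi_sum_eq_one N isPartition_chiBase (z : ℂ) z.im_pos
  have h2 : ∑ᶠ γ : Gamma0 N, wt N ((γ : SL(2, ℤ)) • z) = 1 := by
    rw [← h1]
    exact finsum_congr fun γ => wt_smul_eq N _ z
  rw [← h2, finsum_eq_sum _ hfin]
  exact hasSum_sum_of_ne_finset_zero fun γ hγ => by
    simpa using hγ

end

/-- the density on `ℂ` -/
noncomputable def dens (z : ℂ) : ℝ≥0∞ := ↑((1 / ‖z.im‖₊) ^ 2 : NNReal)

/-- the Siegel-type box in `ℂ` -/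
def boxC : Set ℂ := {z : ℂ | |z.re| ≤ 1 ∧ 1 / 2 < z.im}

theorem lintegral_Ioi_half_lt_top :
    ∫⁻ y in Set.Ioi (1 / 2 : ℝ), (↑((1 / ‖y‖₊) ^ 2 : NNReal) : ℝ≥0∞) < ∞ := by
  have h := integrableOn_Ioi_rpow_of_lt (a := -2) (c := 1 / 2) (by norm_num) (by norm_num)
  have h2 := h.hasFiniteIntegral
  rw [HasFiniteIntegral] at h2
  refine lt_of_le_of_lt (le_of_eq ?_) h2
  refine setLIntegral_congr_fun measurableSet_Ioi fun y hy => ?_
  have hy0 : (0 : ℝ) < y := lt_trans (by norm_num) hy
  rw [enorm_eq_nnnorm]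
  congr 1
  ext
  simp only [NNReal.coe_pow, one_div, NNReal.coe_inv, coe_nnnorm, Real.norm_eq_abs]
  rw [abs_of_pos hy0, abs_of_pos (Real.rpow_pos_of_pos hy0 _),
    Real.rpow_neg hy0.le, inv_pow]
  norm_num

theorem lintegral_boxC_lt_top : ∫⁻ z in boxC, dens z < ∞ := by
  have hmp := Complex.volume_preserving_equiv_real_prod
  have hbox : boxC = Complex.measurableEquivRealProd ⁻¹' (Set.Icc (-1 : ℝ) 1 ×ˢ Set.Ioi (1 / 2 : ℝ)) := by
    ext z
    simp [boxC, abs_le, Complex.measurableEquivRealProd]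
  have hdens : ∀ z : ℂ, dens z =
      (fun p : ℝ × ℝ => (↑((1 / ‖p.2‖₊) ^ 2 : NNReal) : ℝ≥0∞)) (Complex.measurableEquivRealProd z) := by
    intro z
    simp [dens, Complex.measurableEquivRealProd]
  have key := hmp.setLIntegral_comp_preimage_emb Complex.measurableEquivRealProd.measurableEmbedding
    (fun p : ℝ × ℝ => (↑((1 / ‖p.2‖₊) ^ 2 : NNReal) : ℝ≥0∞)) (Set.Icc (-1 : ℝ) 1 ×ˢ Set.Ioi (1 / 2 : ℝ))
  have e1 : ∫⁻ z in boxC, dens z = ∫⁻ (b : ℝ × ℝ) in Set.Icc (-1 : ℝ) 1 ×ˢ Set.Ioi (1 / 2 : ℝ),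
      (↑((1 / ‖b.2‖₊) ^ 2 : NNReal) : ℝ≥0∞) := by
    rw [← key, hbox]
    exact lintegral_congr fun z => hdens z
  rw [e1, Measure.volume_eq_prod, setLIntegral_prod]
  · simp only
    rw [lintegral_const]
    exact ENNReal.mul_lt_top lintegral_Ioi_half_lt_top (by simp)
  · apply Measurable.aemeasurable
    fun_prop


/-- the Siegel-type box in `ℍ` -/
def boxH : Set ℍ := {z : ℍ | |z.re| ≤ 1 ∧ 1 / 2 < z.im}

theorem volume_boxH_lt_top : volume boxH < ∞ := by
  rw [UpperHalfPlane.volume_eq_lintegral]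
  refine lt_of_le_of_lt (lintegral_mono_set ?_) lintegral_boxC_lt_top
  rintro _ ⟨z, hz, rfl⟩
  exact hz

theorem measurableSet_boxH : MeasurableSet boxH := by
  have h1 : Continuous fun z : ℍ => |z.re| := continuous_abs.comp UpperHalfPlane.continuous_re
  have h2 : Continuous fun z : ℍ => z.im := UpperHalfPlane.continuous_im
  exact (isClosed_le h1 continuous_const).measurableSet.inter
    (isOpen_lt continuous_const h2).measurableSet

theorem continuous_chiBase_coe : Continuous fun z : ℍ => chiBase (z : ℂ) :=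
  isPartition_chiBase.smooth.continuousOn.comp_continuous continuous_coe fun z => z.im_pos

theorem chiBase_le_one (z : ℍ) : chiBase (z : ℂ) ≤ 1 := by
  classical
  have hfin := Fermat.Agent.S21.IntAAux.finite_support chiBase isPartition_chiBase (z : ℂ) z.im_pos
  have h1 := isPartition_chiBase.sum_eq_one (z : ℂ) z.im_pos
  rw [finsum_eq_sum _ hfin] at h1
  by_cases h0 : chiBase (z : ℂ) = 0
  · rw [h0]; exact zero_le_one
  · have hmem : (1 : SL(2, ℤ)) ∈ hfin.toFinset := by
      rw [Set.Finite.mem_toFinset, Function.mem_support]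
      simpa [Fermat.Agent.S21.mob] using h0
    have h2 := Finset.single_le_sum (f := fun g : SL(2, ℤ) => chiBase (Fermat.Agent.S21.mob g (z : ℂ)))
      (fun g _ => isPartition_chiBase.nonneg _) hmem
    rw [h1] at h2
    simpa [Fermat.Agent.S21.mob] using h2

theorem integrable_chiBase : Integrable (fun z : ℍ => chiBase (z : ℂ)) volume := by
  have hb : Integrable (boxH.indicator fun _ : ℍ => (1 : ℝ)) volume :=
    (integrable_indicator_iff measurableSet_boxH).mpr
      (integrableOn_const (by exact volume_boxH_lt_top.ne))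
  refine hb.mono' continuous_chiBase_coe.aestronglyMeasurable (Filter.Eventually.of_forall fun z => ?_)
  rw [Real.norm_of_nonneg (isPartition_chiBase.nonneg _)]
  by_cases hz : z ∈ boxH
  · rw [Set.indicator_of_mem hz]
    exact chiBase_le_one z
  · rw [Set.indicator_of_notMem hz]
    by_contra hne
    push Not at hne
    exact hz (isPartition_chiBase.supp _ (ne_of_gt hne))

theorem integrable_chiBase_smul (g : SL(2, ℤ)) :
    Integrable (fun z : ℍ => chiBase ((g • z : ℍ) : ℂ)) volume := by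
  have hmp : MeasurePreserving (fun z : ℍ => (g : GL (Fin 2) ℝ) • z) volume volume :=
    measurePreserving_smul (g : GL (Fin 2) ℝ) volume
  have h := hmp.integrable_comp_of_integrable integrable_chiBase
  refine h.congr (Filter.Eventually.of_forall fun z => ?_)
  simp only [Function.comp_apply]
  rw [ModularGroup.sl_moeb]

variable (N : ℕ) [NeZero N]

omit [NeZero N] in
theorem wt_eq_sum (z : ℍ) [Fintype (SL(2, ℤ) ⧸ Gamma0 N)] :
    wt N z = ∑ q : SL(2, ℤ) ⧸ Gamma0 N, chiBase ((((Quotient.out q : SL(2, ℤ)) • z : ℍ)) : ℂ) := by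
  rw [wt, Fermat.Agent.S21.IntAAux.chi_of_mem N chiBase z.im_pos, finsum_eq_sum_of_fintype]
  exact Finset.sum_congr rfl fun q _ => by rw [mob_coe_eq]

theorem integrable_wt : Integrable (wt N) volume := by
  have : Finite (SL(2, ℤ) ⧸ Gamma0 N) := Subgroup.finite_quotient_of_finiteIndex
  let _ : Fintype (SL(2, ℤ) ⧸ Gamma0 N) := Fintype.ofFinite _
  have h : Integrable (fun z : ℍ => ∑ q : SL(2, ℤ) ⧸ Gamma0 N,
      chiBase ((((Quotient.out q : SL(2, ℤ)) • z : ℍ)) : ℂ)) volume :=
    integrable_finsetSum _ fun q _ => integrable_chiBase_smul _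
  exact h.congr (Filter.Eventually.of_forall fun z => (wt_eq_sum N z).symm)

end Fermat.Agent.S31.H862
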