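import Mathlib
import Fermat.Agent.S31.H862.Weight

/-!
# S31 / SS (helper862) — weight-2 invariant norm, "nice" functions, weighted Petersson integrals
-/

set_option autoImplicit false

open UpperHalfPlane CongruenceSubgroup MeasureTheory
open scoped MatrixGroups ENNReal NNReal ModularForm ComplexConjugate

namespace Fermat.Agent.S31.H862

/-- The weight-2 invariant norm `|f(z)| · Im z`. -/
noncomputable def nrm (f : ℍ → ℂ) (z : ℍ) : ℝ := ‖f z‖ * z.im

theorem nrm_nonneg (f : ℍ → ℂ) (z : ℍ) : 0 ≤ nrm f z :=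
  mul_nonneg (norm_nonneg _) z.im_pos.le

theorem norm_petersson_eq (f g : ℍ → ℂ) (z : ℍ) :
    ‖petersson 2 f g z‖ = nrm f z * nrm g z := by
  simp only [petersson, nrm, norm_mul, Complex.norm_conj, norm_zpow, Complex.norm_real,
    Real.norm_of_nonneg z.im_pos.le]
  rw [zpow_ofNat]
  ring

theorem slash_two_apply (f : ℍ → ℂ) (δ : GL (Fin 2) ℝ) (z : ℍ) :
    (f ∣[(2 : ℤ)] δ) z = σ δ (f (δ • z)) * ((|δ.det.val| : ℝ) : ℂ) * (denom δ z ^ 2)⁻¹ := by
  rw [ModularForm.slash_def]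
  simp only [show (2 : ℤ) - 1 = 1 by norm_num, zpow_one, zpow_neg]
  rw [zpow_ofNat]

theorem nrm_slash (f : ℍ → ℂ) (δ : GL (Fin 2) ℝ) (z : ℍ) :
    nrm (f ∣[(2 : ℤ)] δ) z = nrm f (δ • z) := by
  have hd : denom δ z ≠ 0 := denom_ne_zero δ z
  have hn : (0 : ℝ) < Complex.normSq (denom δ z) := Complex.normSq_pos.mpr hd
  simp only [nrm, slash_two_apply, norm_mul, norm_σ, norm_inv, norm_pow, Complex.norm_real,
    Real.norm_eq_abs, abs_abs]
  rw [UpperHalfPlane.im_smul_eq_div_normSq, Complex.normSq_eq_norm_sq]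
  field_simp

/-- Continuous functions on `ℍ` with bounded weight-2 invariant norm. -/
structure Nice (f : ℍ → ℂ) : Prop where
  cont : Continuous f
  bdd : ∃ C : ℝ, ∀ z, nrm f z ≤ C

theorem continuous_slash_two {f : ℍ → ℂ} (hf : Continuous f) (δ : GL (Fin 2) ℝ) :
    Continuous (f ∣[(2 : ℤ)] δ) := by
  have h : (f ∣[(2 : ℤ)] δ) =
      fun z : ℍ => σ δ (f (δ • z)) * ((|δ.det.val| : ℝ) : ℂ) * (denom δ z ^ 2)⁻¹ :=
    funext fun z => slash_two_apply f δ z
  rw [h]
  have h1 : Continuous fun z : ℍ => δ • z := continuous_const_smul δ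
  have h2 : Continuous fun z : ℍ => denom δ z := by
    unfold denom
    fun_prop
  have h3 : Continuous fun z : ℍ => σ δ (f (δ • z)) :=
    (σ δ).continuous.comp (hf.comp h1)
  refine (h3.mul continuous_const).mul (Continuous.inv₀ (h2.pow 2) fun z => ?_)
  exact pow_ne_zero 2 (denom_ne_zero δ z)

theorem Nice.slash {f : ℍ → ℂ} (hf : Nice f) (δ : GL (Fin 2) ℝ) : Nice (f ∣[(2 : ℤ)] δ) := by
  obtain ⟨C, hC⟩ := hf.bdd
  exact ⟨continuous_slash_two hf.cont δ, C, fun z => by rw [nrm_slash]; exact hC _⟩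

theorem Nice.add {f g : ℍ → ℂ} (hf : Nice f) (hg : Nice g) : Nice (f + g) := by
  obtain ⟨C, hC⟩ := hf.bdd
  obtain ⟨D, hD⟩ := hg.bdd
  refine ⟨hf.cont.add hg.cont, C + D, fun z => ?_⟩
  have h := norm_add_le (f z) (g z)
  have := hC z
  have := hD z
  simp only [nrm, Pi.add_apply] at *
  nlinarith [z.im_pos]

theorem Nice.zero : Nice (0 : ℍ → ℂ) :=
  ⟨continuous_const, 0, fun z => by simp [nrm]⟩

theorem Nice.sum {ι : Type*} (s : Finset ι) {f : ι → ℍ → ℂ} (hf : ∀ i ∈ s, Nice (f i)) :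
    Nice (∑ i ∈ s, f i) := by
  classical
  induction s using Finset.induction_on with
  | empty => simpa using Nice.zero
  | insert a s ha ih =>
    rw [Finset.sum_insert ha]
    exact (hf a (Finset.mem_insert_self a s)).add
      (ih fun i hi => hf i (Finset.mem_insert_of_mem hi))

theorem nice_cuspForm {Γ : Subgroup (GL (Fin 2) ℝ)} [Γ.IsArithmetic] (f : CuspForm Γ 2) :
    Nice (f : ℍ → ℂ) := by
  obtain ⟨C, hC⟩ := CuspFormClass.exists_bound (k := 2) (Γ := Γ) f
  refine ⟨(CuspFormClass.holo f).continuous, C, fun z => ?_⟩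
  have h := hC z
  have h1 : (z.im : ℝ) ^ (((2 : ℤ) : ℝ) / 2) = z.im := by
    norm_num
  rw [h1] at h
  rw [nrm]
  exact (le_div_iff₀ z.im_pos).mp h

/-- The weighted Petersson integral. -/
noncomputable def pint (w : ℍ → ℝ) (f g : ℍ → ℂ) : ℂ :=
  ∫ z : ℍ, petersson 2 f g z * (w z : ℂ)

theorem integrable_pint {w : ℍ → ℝ} (hw : Integrable w volume) {f g : ℍ → ℂ}
    (hf : Nice f) (hg : Nice g) :
    Integrable (fun z : ℍ => petersson 2 f g z * (w z : ℂ)) volume := by
  obtain ⟨C, hC⟩ := hf.bdd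
  obtain ⟨D, hD⟩ := hg.bdd
  have hcont : Continuous (petersson 2 f g) := petersson_continuous 2 hf.cont hg.cont
  have hwC : Integrable (fun z : ℍ => (w z : ℂ)) volume := hw.ofReal
  refine hwC.bdd_mul (c := C * D) hcont.aestronglyMeasurable
    (Filter.Eventually.of_forall fun z => ?_)
  rw [norm_petersson_eq]
  exact mul_le_mul (hC z) (hD z) (nrm_nonneg _ _) ((nrm_nonneg f z).trans (hC z))

end Fermat.Agent.S31.H862
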