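import Mathlib
import Fermat.Agent.S31.H862.Nice

/-!
# S31 / SS (helper862) — the Petersson pairing and the double unfolding identities
-/

set_option autoImplicit false

open UpperHalfPlane CongruenceSubgroup MeasureTheory Matrix.SpecialLinearGroup
open scoped MatrixGroups ENNReal NNReal ModularForm ComplexConjugate

namespace Fermat.Agent.S31.H862

/-- The Petersson pairing (weight 2, level `Γ₀(N)`), on functions. -/
noncomputable def pet (N : ℕ) (f g : ℍ → ℂ) : ℂ := pint (wt N) f g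

/-- The doubly weighted kernel. -/
noncomputable def kern (N : ℕ) (f g : ℍ → ℂ) (δ : GL (Fin 2) ℝ) : ℂ :=
  pint (fun z => wt N z * wt N (δ • z)) f (g ∣[(2 : ℤ)] δ)

theorem countable_SL2Z : Countable SL(2, ℤ) := by
  have : Countable (Matrix (Fin 2) (Fin 2) ℤ) := by unfold Matrix; infer_instance
  unfold Matrix.SpecialLinearGroup; infer_instance

theorem countable_Gamma0 (N : ℕ) : Countable (Gamma0 N) := by
  have := countable_SL2Z
  infer_instance

section

variable (N : ℕ) [NeZero N]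

theorem integrable_wt_mul (δ : GL (Fin 2) ℝ) :
    Integrable (fun z : ℍ => wt N z * wt N (δ • z)) volume := by
  have hc : Continuous fun z : ℍ => wt N (δ • z) :=
    (continuous_wt N).comp (continuous_const_smul δ)
  refine (integrable_wt N).mul_bdd (c := 1) hc.aestronglyMeasurable
    (Filter.Eventually.of_forall fun z => ?_)
  rw [Real.norm_of_nonneg (wt_nonneg N _)]
  exact wt_le_one N _

theorem petersson_add_right (f g₁ g₂ : ℍ → ℂ) (z : ℍ) :
    petersson 2 f (g₁ + g₂) z = petersson 2 f g₁ z + petersson 2 f g₂ z := by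
  simp only [petersson, Pi.add_apply]
  ring

theorem petersson_sum_right {ι : Type*} (s : Finset ι) (f : ℍ → ℂ) (g : ι → ℍ → ℂ) (z : ℍ) :
    petersson 2 f (∑ i ∈ s, g i) z = ∑ i ∈ s, petersson 2 f (g i) z := by
  simp only [petersson, Finset.sum_apply, Finset.mul_sum, Finset.sum_mul]

theorem pint_sum_right {w : ℍ → ℝ} (hw : Integrable w volume) {ι : Type*} (s : Finset ι)
    {f : ℍ → ℂ} {g : ι → ℍ → ℂ} (hf : Nice f) (hg : ∀ i ∈ s, Nice (g i)) :
    pint w f (∑ i ∈ s, g i) = ∑ i ∈ s, pint w f (g i) := by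
  unfold pint
  rw [← integral_finset_sum s fun i hi => integrable_pint hw hf (hg i hi)]
  refine integral_congr_ae (Filter.Eventually.of_forall fun z => ?_)
  simp only [petersson_sum_right, Finset.sum_mul]

theorem pint_conj (w : ℍ → ℝ) (f g : ℍ → ℂ) : conj (pint w f g) = pint w g f := by
  unfold pint
  rw [← integral_conj]
  refine integral_congr_ae (Filter.Eventually.of_forall fun z => ?_)
  simp only [map_mul, Complex.conj_ofReal]
  rw [← petersson_symm]

theorem pet_conj (f g : ℍ → ℂ) : conj (pet N f g) = pet N g f := pint_conj _ f g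

/-- **Unfolding.**  For `g` invariant under `Γ₀(N)`. -/
theorem hasSum_kern {f g : ℍ → ℂ} (hf : Nice f) (hg : Nice g)
    (hinv : ∀ γ : Gamma0 N, g ∣[(2 : ℤ)] (mapGL ℝ (γ : SL(2, ℤ))) = g) (δ : GL (Fin 2) ℝ) :
    HasSum (fun γ : Gamma0 N => kern N f g (mapGL ℝ (γ : SL(2, ℤ)) * δ))
      (pet N f (g ∣[(2 : ℤ)] δ)) := by
  haveI := countable_Gamma0 N
  obtain ⟨C, hC⟩ := hf.bdd
  obtain ⟨D, hD⟩ := (hg.slash δ).bdd
  have hslash : ∀ γ : Gamma0 N, g ∣[(2 : ℤ)] (mapGL ℝ (γ : SL(2, ℤ)) * δ) = g ∣[(2 : ℤ)] δ := by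
    intro γ
    rw [SlashAction.slash_mul, hinv]
  have hcont : Continuous (petersson 2 f (g ∣[(2 : ℤ)] δ)) :=
    petersson_continuous 2 hf.cont (hg.slash δ).cont
  have hsmul : ∀ (γ : Gamma0 N) (z : ℍ),
      (mapGL ℝ (γ : SL(2, ℤ)) * δ) • z = (γ : SL(2, ℤ)) • (δ • z) := by
    intro γ z
    rw [mul_smul]
    rfl
  unfold kern pet pint
  simp only [hslash]
  refine hasSum_integral_of_dominated_convergence
    (fun (γ : Gamma0 N) (z : ℍ) => C * D * (wt N z * wt N ((mapGL ℝ (γ : SL(2, ℤ)) * δ) • z)))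
    (fun γ => ?_) (fun γ => Filter.Eventually.of_forall fun z => ?_)
    (Filter.Eventually.of_forall fun z => ?_) ?_ (Filter.Eventually.of_forall fun z => ?_)
  · exact (integrable_pint (integrable_wt_mul N _) hf (hg.slash δ)).aestronglyMeasurable
  · rw [norm_mul, norm_petersson_eq, Complex.norm_real,
      Real.norm_of_nonneg (mul_nonneg (wt_nonneg N _) (wt_nonneg N _))]
    exact mul_le_mul_of_nonneg_right
      (mul_le_mul (hC z) (hD z) (nrm_nonneg _ _) ((nrm_nonneg f z).trans (hC z)))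
      (mul_nonneg (wt_nonneg N _) (wt_nonneg N _))
  · simp only [hsmul]
    exact (((hasSum_wt N (δ • z)).mul_left (wt N z)).mul_left (C * D)).summable
  · have h : (fun z : ℍ => ∑' γ : Gamma0 N,
        C * D * (wt N z * wt N ((mapGL ℝ (γ : SL(2, ℤ)) * δ) • z))) =
        fun z : ℍ => C * D * wt N z := by
      funext z
      simp only [hsmul]
      rw [(((hasSum_wt N (δ • z)).mul_left (wt N z)).mul_left (C * D)).tsum_eq, mul_one]
    rw [h]
    exact (integrable_wt N).const_mul _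
  · simp only [hsmul]
    have h := ((hasSum_wt N (δ • z)).mul_left (wt N z))
    rw [mul_one] at h
    have h2 := (Complex.hasSum_ofReal.mpr h).mul_left (petersson 2 f (g ∣[(2 : ℤ)] δ) z)
    simpa using h2

/-- **Key symmetry.** -/
theorem conj_kern {f g : ℍ → ℂ} (δ δ' : GL (Fin 2) ℝ) (hdet : 0 < δ.det.val)
    (h1 : ∀ z : ℍ, δ' • (δ • z) = z) (h2 : (g ∣[(2 : ℤ)] δ') ∣[(2 : ℤ)] δ = g) :
    conj (kern N g f δ) = kern N f g δ' := by
  unfold kern
  rw [pint_conj]
  unfold pint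
  have hσ : σ δ = ContinuousAlgEquiv.refl ℝ ℂ := by
    rw [σ, if_pos hdet]
  have hp : ∀ z : ℍ, petersson 2 (f ∣[(2 : ℤ)] δ) g z =
      petersson 2 f (g ∣[(2 : ℤ)] δ') (δ • z) := by
    intro z
    conv_lhs => rw [← h2]
    rw [petersson_slash, hσ]
    simp
  have hE : ∀ z : ℍ, petersson 2 (f ∣[(2 : ℤ)] δ) g z * ((wt N z * wt N (δ • z) : ℝ) : ℂ) =
      (fun u : ℍ => petersson 2 f (g ∣[(2 : ℤ)] δ') u * ((wt N u * wt N (δ' • u) : ℝ) : ℂ))
        (δ • z) := by
    intro z
    simp only [hp, h1]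
    rw [mul_comm (wt N z)]
  simp only [hE]
  exact integral_smul_eq_self
    (fun u : ℍ => petersson 2 f (g ∣[(2 : ℤ)] δ') u * ((wt N u * wt N (δ' • u) : ℝ) : ℂ)) 

end

end Fermat.Agent.S31.H862
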