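import Mathlib
import Fermat.Agent.S31.H862.Unfold

/-!
# S31 / SS (helper862) — the Petersson pairing is positive definite on cusp forms
-/

set_option autoImplicit false

open UpperHalfPlane CongruenceSubgroup MeasureTheory Matrix.SpecialLinearGroup
open scoped MatrixGroups ModularForm ComplexConjugate ENNReal NNReal

namespace Fermat.Agent.S31.H862

/-- The invariant measure on `ℍ` is positive on nonempty open sets. -/
theorem isOpenPosMeasure_uhp : (volume : Measure ℍ).IsOpenPosMeasure := by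
  refine ⟨fun U hU hne hzero => ?_⟩
  rw [UpperHalfPlane.volume_eq_lintegral] at hzero
  have hopen : IsOpen ((↑) '' U : Set ℂ) := isOpenEmbedding_coe.isOpenMap U hU
  have hmeas : Measurable fun z : ℂ => ((↑((1 / ‖z.im‖₊) ^ 2 : NNReal) : ℝ≥0∞)) := by
    fun_prop
  rw [lintegral_eq_zero_iff hmeas, Filter.EventuallyEq, ae_restrict_iff' hopen.measurableSet]
    at hzero
  have h2 : ∀ᵐ z : ℂ, z ∉ ((↑) '' U : Set ℂ) := by
    filter_upwards [hzero] with z hz hzU
    have h3 := hz hzU
    obtain ⟨w, -, rfl⟩ := hzU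
    have him : (0 : ℝ) < (w : ℂ).im := w.im_pos
    simp only [Pi.zero_apply, ENNReal.coe_eq_zero] at h3
    have h5 := pow_eq_zero_iff (two_ne_zero) |>.mp h3
    rw [one_div, inv_eq_zero, nnnorm_eq_zero] at h5
    exact him.ne' h5
  have h4 : volume ((↑) '' U : Set ℂ) = 0 := by
    rw [← compl_compl ((↑) '' U : Set ℂ)]
    exact h2
  exact (hopen.measure_ne_zero volume (hne.image _)) h4

section

variable (N : ℕ) [NeZero N]

theorem petersson_self (f : ℍ → ℂ) (z : ℍ) :
    petersson 2 f f z = ((nrm f z ^ 2 : ℝ) : ℂ) := by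
  simp only [petersson, nrm]
  rw [zpow_ofNat, mul_comm (conj (f z)), Complex.mul_conj, Complex.normSq_eq_norm_sq]
  push_cast
  ring

theorem continuous_nrm {f : ℍ → ℂ} (hf : Continuous f) : Continuous (nrm f) :=
  (continuous_norm.comp hf).mul UpperHalfPlane.continuous_im

theorem nrm_smul_of_slash_eq {f : ℍ → ℂ} {δ : GL (Fin 2) ℝ} (h : f ∣[(2 : ℤ)] δ = f) (z : ℍ) :
    nrm f (δ • z) = nrm f z := by
  rw [← nrm_slash, h]

theorem eq_zero_of_pet_self_eq_zero {f : ℍ → ℂ} (hf : Nice f)
    (hinv : ∀ γ : Gamma0 N, f ∣[(2 : ℤ)] (mapGL ℝ (γ : SL(2, ℤ))) = f)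
    (h0 : pet N f f = 0) : f = 0 := by
  have := isOpenPosMeasure_uhp
  have hint : Integrable (fun z : ℍ => nrm f z ^ 2 * wt N z) volume := by
    have := integrable_pint (integrable_wt N) hf hf
    have h2 : (fun z : ℍ => petersson 2 f f z * (wt N z : ℂ)) =
        fun z : ℍ => ((nrm f z ^ 2 * wt N z : ℝ) : ℂ) := by
      funext z
      rw [petersson_self]
      push_cast
      ring
    rw [h2] at this
    exact this.re.congr (Filter.Eventually.of_forall fun z => by
      simp only [RCLike.re_to_complex, Complex.ofReal_re])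
  have h1 : ∫ z : ℍ, nrm f z ^ 2 * wt N z = 0 := by
    have h2 : pet N f f = ((∫ z : ℍ, nrm f z ^ 2 * wt N z : ℝ) : ℂ) := by
      unfold pet pint
      rw [← integral_complex_ofReal]
      refine integral_congr_ae (Filter.Eventually.of_forall fun z => ?_)
      simp only [petersson_self]
      push_cast
      ring
    rw [h2] at h0
    exact_mod_cast h0
  have hnn : 0 ≤ fun z : ℍ => nrm f z ^ 2 * wt N z :=
    fun z => mul_nonneg (sq_nonneg _) (wt_nonneg N z)
  have hae := (integral_eq_zero_iff_of_nonneg hnn hint).mp h1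
  have hcont : Continuous fun z : ℍ => nrm f z ^ 2 * wt N z :=
    ((continuous_nrm hf.cont).pow 2).mul (continuous_wt N)
  have hall : (fun z : ℍ => nrm f z ^ 2 * wt N z) = 0 :=
    (Continuous.ae_eq_iff_eq volume hcont continuous_const).mp hae
  funext z
  obtain ⟨γ, hγ⟩ : ∃ γ : Gamma0 N, wt N ((γ : SL(2, ℤ)) • z) ≠ 0 := by
    by_contra hcon
    push Not at hcon
    have h := hasSum_wt N z
    simp only [hcon] at h
    exact zero_ne_one (h.unique hasSum_zero).symm
  have h3 := congrFun hall ((γ : SL(2, ℤ)) • z)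
  simp only [Pi.zero_apply, mul_eq_zero, hγ, or_false] at h3
  replace h3 := pow_eq_zero_iff (two_ne_zero) |>.mp h3
  have h4 : nrm f ((mapGL ℝ (γ : SL(2, ℤ))) • z) = nrm f z := nrm_smul_of_slash_eq (hinv γ) z
  have h5 : nrm f z = 0 := by
    rw [← h4]
    exact h3
  rw [nrm, mul_eq_zero] at h5
  rcases h5 with h5 | h5
  · simpa using h5
  · exact absurd h5 z.im_pos.ne'

end

end Fermat.Agent.S31.H862
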