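import Mathlib
import Fermat.Prelude.Def_CuspForm_HeckeAlgebra

/-!
# S31 / SS (helper862) — coset combinatorics of the Hecke double coset `Γ₀(N) diag(1,p) Γ₀(N)`

`Φ (γ, x) = γ · β_x` (`β_x` the Prelude representatives `heckeRep p x`, `x ∈ ℙ¹(𝔽_p)`) is
injective, and there is an involution `σ` of `Γ₀(N) × ℙ¹(𝔽_p)` with
`Φ (σ y) * Φ y = p · 1` (the adjugate).
-/

set_option autoImplicit false

open UpperHalfPlane CongruenceSubgroup Matrix.SpecialLinearGroup
open scoped MatrixGroups ModularForm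

open P2MW.S_ModularForm_heckeT_slash_eq_self_of_mem_Gamma0.ModularForm.HeckeSlashInvariance

namespace Fermat.Agent.S31.H862

variable {p : ℕ} [Fact p.Prime] {N : ℕ}

/-- `Φ (γ, x) = γ · β_x`. -/
noncomputable def cosetMap (p N : ℕ) (y : Gamma0 N × OnePoint (ZMod p)) : GL (Fin 2) ℝ :=
  mapGL ℝ (y.1 : SL(2, ℤ)) * heckeRep p y.2

theorem p_ne_zero' : p ≠ 0 := (Fact.out : p.Prime).ne_zero

theorem mapGL_val_apply (g : SL(2, ℤ)) (i j : Fin 2) :
    ((mapGL ℝ g : GL (Fin 2) ℝ) : Matrix (Fin 2) (Fin 2) ℝ) i j = ((g i j : ℤ) : ℝ) := by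
  simp

theorem sl_det_eq (g : SL(2, ℤ)) : g 0 0 * g 1 1 - g 0 1 * g 1 0 = 1 := by
  have h := g.det_coe
  rwa [Matrix.det_fin_two] at h

theorem sl_ext_entries {g h : SL(2, ℤ)} (h00 : g 0 0 = h 0 0) (h01 : g 0 1 = h 0 1)
    (h10 : g 1 0 = h 1 0) (h11 : g 1 1 = h 1 1) : g = h := by
  ext i j
  fin_cases i <;> fin_cases j <;> assumption

/-- entries of `g · β_j` -/
theorem entries_mul_heckeMatrix (g : SL(2, ℤ)) (j : ℕ) (a b : Fin 2) :
    ((mapGL ℝ g * ModularForm.heckeMatrix p j : GL (Fin 2) ℝ) : Matrix (Fin 2) (Fin 2) ℝ) a b =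
      (((!![g 0 0, g 0 0 * j + g 0 1 * p; g 1 0, g 1 0 * j + g 1 1 * p] :
        Matrix (Fin 2) (Fin 2) ℤ) a b : ℤ) : ℝ) := by
  have hp : p ≠ 0 := p_ne_zero'
  fin_cases a <;> fin_cases b <;>
    simp [Matrix.mul_apply, Fin.sum_univ_two, ModularForm.val_heckeMatrix hp]

/-- entries of `g · β_∞` -/
theorem entries_mul_heckeDiagMatrix (g : SL(2, ℤ)) (a b : Fin 2) :
    ((mapGL ℝ g * ModularForm.heckeDiagMatrix p : GL (Fin 2) ℝ) : Matrix (Fin 2) (Fin 2) ℝ) a b =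
      (((!![g 0 0 * p, g 0 1; g 1 0 * p, g 1 1] :
        Matrix (Fin 2) (Fin 2) ℤ) a b : ℤ) : ℝ) := by
  have hp : p ≠ 0 := p_ne_zero'
  fin_cases a <;> fin_cases b <;>
    simp [Matrix.mul_apply, Fin.sum_univ_two, ModularForm.val_heckeDiagMatrix hp]

theorem entries_heckeMatrix (j : ℕ) (a b : Fin 2) :
    ((ModularForm.heckeMatrix p j : GL (Fin 2) ℝ) : Matrix (Fin 2) (Fin 2) ℝ) a b =
      (((!![1, (j : ℤ); 0, (p : ℤ)] : Matrix (Fin 2) (Fin 2) ℤ) a b : ℤ) : ℝ) := by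
  have hp : p ≠ 0 := p_ne_zero'
  fin_cases a <;> fin_cases b <;> simp [ModularForm.val_heckeMatrix hp]

theorem entries_heckeDiagMatrix (a b : Fin 2) :
    ((ModularForm.heckeDiagMatrix p : GL (Fin 2) ℝ) : Matrix (Fin 2) (Fin 2) ℝ) a b =
      (((!![(p : ℤ), 0; 0, 1] : Matrix (Fin 2) (Fin 2) ℤ) a b : ℤ) : ℝ) := by
  have hp : p ≠ 0 := p_ne_zero'
  fin_cases a <;> fin_cases b <;> simp [ModularForm.val_heckeDiagMatrix hp]

theorem p_two_le : (2 : ℤ) ≤ p := by exact_mod_cast (Fact.out : p.Prime).two_le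

/-- `g β_j = β_j'` forces `g = 1`, `j = j'`. -/
theorem eq_of_mul_heckeMatrix_eq (g : SL(2, ℤ)) (j j' : ZMod p)
    (h : mapGL ℝ g * ModularForm.heckeMatrix p j.val = ModularForm.heckeMatrix p j'.val) :
    g = 1 ∧ j = j' := by
  have hp2 := p_two_le (p := p)
  have hE : ∀ a b : Fin 2,
      (!![g 0 0, g 0 0 * (j.val : ℤ) + g 0 1 * p; g 1 0, g 1 0 * (j.val : ℤ) + g 1 1 * p] :
        Matrix (Fin 2) (Fin 2) ℤ) a b =
      (!![1, (j'.val : ℤ); 0, (p : ℤ)] : Matrix (Fin 2) (Fin 2) ℤ) a b := by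
    intro a b
    have h1 := congrArg (fun M : GL (Fin 2) ℝ => (M : Matrix (Fin 2) (Fin 2) ℝ) a b) h
    simp only [entries_mul_heckeMatrix, entries_heckeMatrix] at h1
    exact_mod_cast h1
  have h00 : g 0 0 = 1 := by simpa using hE 0 0
  have h10 : g 1 0 = 0 := by simpa using hE 1 0
  have h01 : g 0 0 * (j.val : ℤ) + g 0 1 * p = j'.val := by simpa using hE 0 1
  have h11 : g 1 0 * (j.val : ℤ) + g 1 1 * p = p := by simpa using hE 1 1
  rw [h00, one_mul] at h01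
  rw [h10, zero_mul, zero_add] at h11
  have hp0 : (p : ℤ) ≠ 0 := by positivity
  have h11' : g 1 1 = 1 := by
    have : (g 1 1 - 1) * (p : ℤ) = 0 := by linear_combination h11
    rcases mul_eq_zero.mp this with h | h
    · linarith
    · exact absurd h hp0
  have hjj : j = j' := by
    have h2 := congrArg (Int.cast : ℤ → ZMod p) h01
    push_cast at h2
    rw [ZMod.natCast_zmod_val, ZMod.natCast_zmod_val, ZMod.natCast_self, mul_zero, add_zero] at h2
    exact h2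
  subst hjj
  have h01' : g 0 1 = 0 := by
    have : g 0 1 * (p : ℤ) = 0 := by linear_combination h01
    rcases mul_eq_zero.mp this with h | h
    · exact h
    · exact absurd h hp0
  refine ⟨sl_ext_entries ?_ ?_ ?_ ?_, rfl⟩ <;> simp [h00, h01', h10, h11']

/-- `g β_∞ = β_∞` forces `g = 1`. -/
theorem eq_of_mul_heckeDiagMatrix_eq (g : SL(2, ℤ))
    (h : mapGL ℝ g * ModularForm.heckeDiagMatrix p = ModularForm.heckeDiagMatrix p) :
    g = 1 := by
  have hp2 := p_two_le (p := p)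
  have hE : ∀ a b : Fin 2,
      (!![g 0 0 * p, g 0 1; g 1 0 * p, g 1 1] : Matrix (Fin 2) (Fin 2) ℤ) a b =
      (!![(p : ℤ), 0; 0, 1] : Matrix (Fin 2) (Fin 2) ℤ) a b := by
    intro a b
    have h1 := congrArg (fun M : GL (Fin 2) ℝ => (M : Matrix (Fin 2) (Fin 2) ℝ) a b) h
    simp only [entries_mul_heckeDiagMatrix, entries_heckeDiagMatrix] at h1
    exact_mod_cast h1
  have h00 : g 0 0 * p = p := by simpa using hE 0 0
  have h10 : g 1 0 * p = 0 := by simpa using hE 1 0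
  have h01 : g 0 1 = 0 := by simpa using hE 0 1
  have h11 : g 1 1 = 1 := by simpa using hE 1 1
  have hp0 : (p : ℤ) ≠ 0 := by positivity
  have h00' : g 0 0 = 1 := by
    have : (g 0 0 - 1) * (p : ℤ) = 0 := by linear_combination h00
    rcases mul_eq_zero.mp this with h | h
    · linarith
    · exact absurd h hp0
  have h10' : g 1 0 = 0 := by
    rcases mul_eq_zero.mp h10 with h | h
    · exact h
    · exact absurd h hp0
  exact sl_ext_entries (by simp [h00']) (by simp [h01]) (by simp [h10']) (by simp [h11])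

/-- `g β_j ≠ β_∞`. -/
theorem mul_heckeMatrix_ne (g : SL(2, ℤ)) (j : ℕ) :
    mapGL ℝ g * ModularForm.heckeMatrix p j ≠ ModularForm.heckeDiagMatrix p := by
  intro h
  have hp2 := p_two_le (p := p)
  have hE : ∀ a b : Fin 2,
      (!![g 0 0, g 0 0 * (j : ℤ) + g 0 1 * p; g 1 0, g 1 0 * (j : ℤ) + g 1 1 * p] :
        Matrix (Fin 2) (Fin 2) ℤ) a b =
      (!![(p : ℤ), 0; 0, 1] : Matrix (Fin 2) (Fin 2) ℤ) a b := by
    intro a b
    have h1 := congrArg (fun M : GL (Fin 2) ℝ => (M : Matrix (Fin 2) (Fin 2) ℝ) a b) h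
    simp only [entries_mul_heckeMatrix, entries_heckeDiagMatrix] at h1
    exact_mod_cast h1
  have h00 : g 0 0 = p := by simpa using hE 0 0
  have h10 : g 1 0 = 0 := by simpa using hE 1 0
  have hdet := sl_det_eq g
  rw [h00, h10, mul_zero, sub_zero] at hdet
  have hdvd : (p : ℤ) ∣ 1 := ⟨g 1 1, hdet.symm⟩
  have := Int.le_of_dvd one_pos hdvd
  omega

/-- `g β_∞ ≠ β_j`. -/
theorem mul_heckeDiagMatrix_ne (g : SL(2, ℤ)) (j : ℕ) :
    mapGL ℝ g * ModularForm.heckeDiagMatrix p ≠ ModularForm.heckeMatrix p j := by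
  intro h
  have hp2 := p_two_le (p := p)
  have hE : ∀ a b : Fin 2,
      (!![g 0 0 * p, g 0 1; g 1 0 * p, g 1 1] : Matrix (Fin 2) (Fin 2) ℤ) a b =
      (!![1, (j : ℤ); 0, (p : ℤ)] : Matrix (Fin 2) (Fin 2) ℤ) a b := by
    intro a b
    have h1 := congrArg (fun M : GL (Fin 2) ℝ => (M : Matrix (Fin 2) (Fin 2) ℝ) a b) h
    simp only [entries_mul_heckeDiagMatrix, entries_heckeMatrix] at h1
    exact_mod_cast h1
  have h00 : g 0 0 * p = 1 := by simpa using hE 0 0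
  have hdvd : (p : ℤ) ∣ 1 := ⟨g 0 0, by rw [mul_comm]; exact h00.symm⟩
  have := Int.le_of_dvd one_pos hdvd
  omega

theorem eq_of_mul_heckeRep_eq (g : SL(2, ℤ)) (x x' : OnePoint (ZMod p))
    (h : mapGL ℝ g * heckeRep p x = heckeRep p x') : g = 1 ∧ x = x' := by
  induction x using OnePoint.rec with
  | infty =>
    induction x' using OnePoint.rec with
    | infty => exact ⟨eq_of_mul_heckeDiagMatrix_eq g h, rfl⟩
    | coe j' => exact absurd h (mul_heckeDiagMatrix_ne g _)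
  | coe j =>
    induction x' using OnePoint.rec with
    | infty => exact absurd h (mul_heckeMatrix_ne g _)
    | coe j' =>
      obtain ⟨h1, h2⟩ := eq_of_mul_heckeMatrix_eq g j j' h
      exact ⟨h1, by rw [h2]⟩

theorem cosetMap_injective : Function.Injective (cosetMap p N) := by
  rintro ⟨γ, x⟩ ⟨γ', x'⟩ h
  simp only [cosetMap] at h
  have h2 : mapGL ℝ ((γ' : SL(2, ℤ))⁻¹ * (γ : SL(2, ℤ))) * heckeRep p x = heckeRep p x' := by
    rw [map_mul, map_inv, mul_assoc, h, ← mul_assoc, inv_mul_cancel, one_mul]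
  obtain ⟨h3, h4⟩ := eq_of_mul_heckeRep_eq _ x x' h2
  have h5 : (γ : SL(2, ℤ)) = γ' := by
    have := congrArg (fun t => (γ' : SL(2, ℤ)) * t) h3
    simpa using this
  exact Prod.ext (Subtype.ext h5) h4

/-- The scalar matrix `p · 1`. -/
noncomputable def scalarP (p : ℕ) [Fact p.Prime] : GL (Fin 2) ℝ :=
  Matrix.GeneralLinearGroup.scalar (Fin 2)
    (Units.mk0 (p : ℝ) (Nat.cast_ne_zero.mpr (Fact.out : p.Prime).ne_zero))

theorem entries_scalarP (a b : Fin 2) :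
    ((scalarP p : GL (Fin 2) ℝ) : Matrix (Fin 2) (Fin 2) ℝ) a b =
      (((!![(p : ℤ), 0; 0, (p : ℤ)] : Matrix (Fin 2) (Fin 2) ℤ) a b : ℤ) : ℝ) := by
  rw [scalarP, Matrix.GeneralLinearGroup.coe_scalar, Matrix.scalar_apply,
    Matrix.diagonal_apply]
  fin_cases a <;> fin_cases b <;> simp

/-- the unipotent matrix `(1, -j; 0, 1)` -/
def unipNeg (j : ℤ) : SL(2, ℤ) :=
  ⟨!![1, -j; 0, 1], by simp [Matrix.det_fin_two_of]⟩

theorem unipNeg_apply_zero_zero (j : ℤ) : unipNeg j 0 0 = 1 := rfl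

theorem unipNeg_apply_zero_one (j : ℤ) : unipNeg j 0 1 = -j := rfl

theorem unipNeg_apply_one_zero (j : ℤ) : unipNeg j 1 0 = 0 := rfl

theorem unipNeg_apply_one_one (j : ℤ) : unipNeg j 1 1 = 1 := rfl

theorem unipNeg_mem (N : ℕ) (j : ℤ) : unipNeg j ∈ Gamma0 N := by
  rw [Gamma0_mem, unipNeg_apply_one_zero]
  simp

theorem heckeRep_zero_mul_diag :
    heckeRep p ((0 : ZMod p) : OnePoint (ZMod p)) * ModularForm.heckeDiagMatrix p = scalarP p := by
  have hp : p ≠ 0 := p_ne_zero'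
  ext a b
  rw [entries_scalarP]
  fin_cases a <;> fin_cases b <;>
    simp [Matrix.mul_apply, Fin.sum_univ_two, ModularForm.val_heckeDiagMatrix hp,
      ModularForm.val_heckeMatrix hp]

theorem unipNeg_mul_diag_mul_heckeMatrix (j : ℕ) :
    mapGL ℝ (unipNeg (j : ℤ)) * ModularForm.heckeDiagMatrix p * ModularForm.heckeMatrix p j
      = scalarP p := by
  have hp : p ≠ 0 := p_ne_zero'
  ext a b
  rw [entries_scalarP]
  rw [mul_assoc]
  have h : ∀ a b : Fin 2, ((mapGL ℝ (unipNeg (j : ℤ)) *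
      (ModularForm.heckeDiagMatrix p * ModularForm.heckeMatrix p j) : GL (Fin 2) ℝ) :
        Matrix (Fin 2) (Fin 2) ℝ) a b =
      ((unipNeg (j : ℤ) a 0 : ℤ) : ℝ) * ((ModularForm.heckeDiagMatrix p *
        ModularForm.heckeMatrix p j : GL (Fin 2) ℝ) : Matrix (Fin 2) (Fin 2) ℝ) 0 b +
      ((unipNeg (j : ℤ) a 1 : ℤ) : ℝ) * ((ModularForm.heckeDiagMatrix p *
        ModularForm.heckeMatrix p j : GL (Fin 2) ℝ) : Matrix (Fin 2) (Fin 2) ℝ) 1 b := by
    intro a b
    rw [Units.val_mul, Matrix.mul_apply, Fin.sum_univ_two, mapGL_val_apply, mapGL_val_apply]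
  rw [h]
  fin_cases a <;> fin_cases b <;>
    simp [Matrix.mul_apply, Fin.sum_univ_two, ModularForm.val_heckeDiagMatrix hp,
      ModularForm.val_heckeMatrix hp, unipNeg_apply_zero_zero, unipNeg_apply_zero_one,
      unipNeg_apply_one_zero, unipNeg_apply_one_one]
  ring

/-- the adjugate of `β_x` is `τ β_{x₀}` with `τ` unipotent upper triangular -/
theorem exists_adj_heckeRep (N : ℕ) (x : OnePoint (ZMod p)) :
    ∃ (τ : SL(2, ℤ)) (x₀ : OnePoint (ZMod p)), τ ∈ Gamma0 N ∧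
      mapGL ℝ τ * heckeRep p x₀ * heckeRep p x = scalarP p := by
  induction x using OnePoint.rec with
  | infty =>
    refine ⟨1, ((0 : ZMod p) : OnePoint (ZMod p)), one_mem _, ?_⟩
    rw [map_one, one_mul]
    exact heckeRep_zero_mul_diag
  | coe j =>
    exact ⟨unipNeg (j.val : ℤ), OnePoint.infty, unipNeg_mem N _,
      unipNeg_mul_diag_mul_heckeMatrix j.val⟩

theorem Gamma0_dvd {N : ℕ} {g : SL(2, ℤ)} : g ∈ Gamma0 N ↔ (N : ℤ) ∣ g 1 0 := by
  rw [Gamma0_mem, ZMod.intCast_zmod_eq_zero_iff_dvd]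

theorem exists_adj_partner (hpN : ¬ p ∣ N) (y : Gamma0 N × OnePoint (ZMod p)) :
    ∃ y' : Gamma0 N × OnePoint (ZMod p), cosetMap p N y' * cosetMap p N y = scalarP p := by
  obtain ⟨γ, x⟩ := y
  obtain ⟨τ, x₀, hτ, hτx⟩ := exists_adj_heckeRep N x
  have hγinv : ((γ : SL(2, ℤ))⁻¹) ∈ Gamma0 N := inv_mem γ.2
  obtain ⟨g', hg', hmul⟩ := heckeRep_mul hpN ((γ : SL(2, ℤ))⁻¹) (Gamma0_dvd.mp hγinv) x₀
  have hg'mem : g' ∈ Gamma0 N := Gamma0_dvd.mpr hg'
  refine ⟨(⟨τ * g', mul_mem hτ hg'mem⟩, redMatrix p ((γ : SL(2, ℤ))⁻¹) • x₀), ?_⟩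
  simp only [cosetMap]
  calc mapGL ℝ (τ * g') * heckeRep p (redMatrix p ((γ : SL(2, ℤ))⁻¹) • x₀)
        * (mapGL ℝ (γ : SL(2, ℤ)) * heckeRep p x)
      = mapGL ℝ τ * (mapGL ℝ g' * heckeRep p (redMatrix p ((γ : SL(2, ℤ))⁻¹) • x₀))
        * mapGL ℝ (γ : SL(2, ℤ)) * heckeRep p x := by
        rw [map_mul]; group
    _ = mapGL ℝ τ * (heckeRep p x₀ * mapGL ℝ ((γ : SL(2, ℤ))⁻¹))
        * mapGL ℝ (γ : SL(2, ℤ)) * heckeRep p x := by rw [hmul]
    _ = mapGL ℝ τ * heckeRep p x₀ * heckeRep p x := by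
        rw [map_inv]; group
    _ = scalarP p := hτx

/-- The adjugate involution on `Γ₀(N) × ℙ¹(𝔽_p)`. -/
noncomputable def adjFun (hpN : ¬ p ∣ N) (y : Gamma0 N × OnePoint (ZMod p)) :
    Gamma0 N × OnePoint (ZMod p) :=
  Classical.choose (exists_adj_partner hpN y)

theorem adjFun_spec (hpN : ¬ p ∣ N) (y : Gamma0 N × OnePoint (ZMod p)) :
    cosetMap p N (adjFun hpN y) * cosetMap p N y = scalarP p :=
  Classical.choose_spec (exists_adj_partner hpN y)

theorem adjFun_involutive (hpN : ¬ p ∣ N) : Function.Involutive (adjFun (N := N) hpN) := by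
  intro y
  apply cosetMap_injective
  have h1 := adjFun_spec hpN y
  have h2 := adjFun_spec hpN (adjFun hpN y)
  have hc : scalarP p * cosetMap p N y = cosetMap p N y * scalarP p :=
    Matrix.GeneralLinearGroup.scalar_commute _ _
  have h3 : cosetMap p N (adjFun hpN (adjFun hpN y)) * scalarP p
      = cosetMap p N y * scalarP p := by
    calc cosetMap p N (adjFun hpN (adjFun hpN y)) * scalarP p
        = cosetMap p N (adjFun hpN (adjFun hpN y)) *
            (cosetMap p N (adjFun hpN y) * cosetMap p N y) := by rw [h1]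
      _ = (cosetMap p N (adjFun hpN (adjFun hpN y)) * cosetMap p N (adjFun hpN y)) *
            cosetMap p N y := (mul_assoc _ _ _).symm
      _ = scalarP p * cosetMap p N y := by rw [h2]
      _ = cosetMap p N y * scalarP p := hc
  exact mul_right_cancel h3

/-- The adjugate involution as a permutation. -/
noncomputable def adjPerm (hpN : ¬ p ∣ N) : Equiv.Perm (Gamma0 N × OnePoint (ZMod p)) :=
  (adjFun_involutive hpN).toPerm

theorem adjPerm_apply (hpN : ¬ p ∣ N) (y : Gamma0 N × OnePoint (ZMod p)) :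
    adjPerm hpN y = adjFun hpN y := rfl

omit [Fact p.Prime] in
theorem det_cosetMap_pos (y : Gamma0 N × OnePoint (ZMod p)) : 0 < (cosetMap p N y).det.val := by
  obtain ⟨γ, x⟩ := y
  simp only [cosetMap, map_mul, Units.val_mul]
  have h1 : ((mapGL ℝ (γ : SL(2, ℤ))).det : ℝˣ) = 1 := by simp
  rw [h1, Units.val_one, one_mul]
  induction x using OnePoint.rec with
  | infty => exact ModularForm.det_heckeDiagMatrix_pos p
  | coe j => exact ModularForm.det_heckeMatrix_pos p _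

end Fermat.Agent.S31.H862
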