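import Mathlib
import Fermat.Agent.S31.H862.Unfold
import Fermat.Agent.S31.H862.Cosets

/-!
# S31 / SS (helper862) — `T_p` (`p ∤ N`) is self-adjoint for the Petersson pairing
-/

set_option autoImplicit false

open UpperHalfPlane CongruenceSubgroup MeasureTheory Matrix.SpecialLinearGroup
open scoped MatrixGroups ModularForm ComplexConjugate

open P2MW.S_ModularForm_heckeT_slash_eq_self_of_mem_Gamma0.ModularForm.HeckeSlashInvariance

namespace Fermat.Agent.S31.H862

/-- `HasSum` over a product with a finite second factor, from `HasSum` on each fibre. -/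
theorem hasSum_prod_of_fintype {α β M : Type*} [Fintype β] [AddCommMonoid M]
    [TopologicalSpace M] [ContinuousAdd M] {f : α × β → M} {a : β → M}
    (h : ∀ b, HasSum (fun x => f (x, b)) (a b)) : HasSum f (∑ b, a b) := by
  classical
  have h1 : ∀ b : β, HasSum (fun y : α × β => if y.2 = b then f y else 0) (a b) := by
    intro b
    have hinj : Function.Injective (fun x : α => ((x, b) : α × β)) := fun x x' hxx' => by
      simpa using hxx'
    have := (hinj.hasSum_iff (f := fun y : α × β => if y.2 = b then f y else 0) (a := a b)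
      (by
        rintro ⟨x, b'⟩ hy
        have hb : b' ≠ b := by
          rintro rfl
          exact hy ⟨x, rfl⟩
        simp [hb])).mp
    apply this
    simpa [Function.comp_def] using h b
  have h2 := hasSum_sum (s := Finset.univ) fun b _ => h1 b
  have h3 : (fun y : α × β => ∑ i : β, if y.2 = i then f y else 0) = f := by
    funext y
    rw [Finset.sum_ite_eq]
    simp
  rwa [h3] at h2

section

variable {p : ℕ} [Fact p.Prime]

theorem scalarP_smul (z : ℍ) : scalarP p • z = z := by
  rw [scalarP]
  exact glScalar_smul _ z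

theorem slash_scalarP (g : ℍ → ℂ) : g ∣[(2 : ℤ)] scalarP p = g := by
  funext z
  have hp : (p : ℝ) ≠ 0 := Nat.cast_ne_zero.mpr (Fact.out : p.Prime).ne_zero
  have hpc : (p : ℂ) ≠ 0 := Nat.cast_ne_zero.mpr (Fact.out : p.Prime).ne_zero
  have hdet : (scalarP p).det.val = (p : ℝ) ^ 2 := by
    rw [scalarP, Matrix.GeneralLinearGroup.det_scalar]
    simp
  have hσ : σ (scalarP p) = ContinuousAlgEquiv.refl ℝ ℂ := by
    rw [σ, if_pos (by rw [hdet]; positivity)]
  have hden : denom (scalarP p) z = (p : ℂ) := by
    rw [scalarP, denom_scalar]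
    simp
  rw [slash_two_apply, scalarP_smul, hσ, hdet, hden]
  simp only [ContinuousAlgEquiv.refl_apply]
  rw [abs_of_pos (by positivity)]
  push_cast
  field_simp

end

section

variable {N : ℕ} [NeZero N]

theorem cusp_slash_mapGL (g : CuspForm (Gamma0 N) 2) (γ : Gamma0 N) :
    (g : ℍ → ℂ) ∣[(2 : ℤ)] (mapGL ℝ (γ : SL(2, ℤ))) = g :=
  SlashInvariantFormClass.slash_action_eq g _ (Subgroup.mem_map_of_mem (mapGL ℝ) γ.2)

theorem nice_cusp (g : CuspForm (Gamma0 N) 2) : Nice (g : ℍ → ℂ) := nice_cuspForm g

variable {p : ℕ} [Fact p.Prime]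

/-- `⟨f, T_p g⟩` as an unfolded sum over the double coset. -/
theorem hasSum_kern_cosets (f g : CuspForm (Gamma0 N) 2) :
    HasSum (fun y : Gamma0 N × OnePoint (ZMod p) => kern N f g (cosetMap p N y))
      (pet N f (ModularForm.heckeT 2 p g)) := by
  haveI : NeZero p := ⟨(Fact.out : p.Prime).ne_zero⟩
  have h1 : pet N f (ModularForm.heckeT 2 p g) =
      ∑ x : OnePoint (ZMod p), pet N f ((g : ℍ → ℂ) ∣[(2 : ℤ)] heckeRep p x) := by
    rw [heckeT_eq_sum_onePoint]
    exact pint_sum_right (integrable_wt N) Finset.univ (nice_cusp f)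
      fun x _ => (nice_cusp g).slash _
  rw [h1]
  exact hasSum_prod_of_fintype fun x =>
    hasSum_kern N (nice_cusp f) (nice_cusp g) (cusp_slash_mapGL g) (heckeRep p x)

/-- **Self-adjointness of `T_p`, `p ∤ N`** (function level). -/
theorem pet_heckeT_comm (hpN : ¬ p ∣ N) (f g : CuspForm (Gamma0 N) 2) :
    pet N (ModularForm.heckeT 2 p f) g = pet N f (ModularForm.heckeT 2 p g) := by
  have hA := hasSum_kern_cosets (p := p) f g
  have hB := hasSum_kern_cosets (p := p) g f
  have hB' : HasSum (fun y : Gamma0 N × OnePoint (ZMod p) => conj (kern N g f (cosetMap p N y)))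
      (conj (pet N g (ModularForm.heckeT 2 p f))) :=
    hB.map (starRingEnd ℂ) Complex.continuous_conj
  rw [pet_conj] at hB'
  have hkey : ∀ y : Gamma0 N × OnePoint (ZMod p),
      conj (kern N g f (cosetMap p N y)) = kern N f g (cosetMap p N (adjPerm hpN y)) := by
    intro y
    refine conj_kern N _ _ (det_cosetMap_pos y) (fun z => ?_) ?_
    · rw [← mul_smul, adjPerm_apply, adjFun_spec, scalarP_smul]
    · rw [← SlashAction.slash_mul, adjPerm_apply, adjFun_spec, slash_scalarP]
  simp only [hkey] at hB'
  have hB'' := (Equiv.hasSum_iff (adjPerm (N := N) (p := p) hpN)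
    (f := fun y => kern N f g (cosetMap p N y))).mp hB'
  exact hB''.unique hA

end

end Fermat.Agent.S31.H862
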