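import Mathlib
import Fermat.Agent.S31.H862.SelfAdjoint
import Fermat.Agent.S31.H862.Positive

/-!
# S31 / SS (helper862) — the anemic Hecke algebra of weight 2 is reduced

`heckeAlgebra_isReduced`: if `S` contains all primes dividing `N`, then
`CuspForm.heckeAlgebra N 2 S` is reduced (exact statement of the row skeleton, piece SS).
-/

set_option autoImplicit false

open UpperHalfPlane CongruenceSubgroup MeasureTheory Matrix.SpecialLinearGroup
open scoped MatrixGroups ModularForm ComplexConjugate

namespace Fermat.Agent.S31.H862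

section

variable {N : ℕ} [NeZero N]

/-- The Petersson pairing on cusp forms. -/
noncomputable def petC (f g : CuspForm (Gamma0 N) 2) : ℂ := pet N f g

theorem pet_add_right {f g₁ g₂ : ℍ → ℂ} (hf : Nice f) (hg₁ : Nice g₁) (hg₂ : Nice g₂) :
    pet N f (g₁ + g₂) = pet N f g₁ + pet N f g₂ := by
  unfold pet pint
  rw [← integral_add (integrable_pint (integrable_wt N) hf hg₁)
    (integrable_pint (integrable_wt N) hf hg₂)]
  refine integral_congr_ae (Filter.Eventually.of_forall fun z => ?_)
  simp only [petersson_add_right]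
  ring

theorem petC_add_right (f g₁ g₂ : CuspForm (Gamma0 N) 2) :
    petC f (g₁ + g₂) = petC f g₁ + petC f g₂ := by
  unfold petC
  rw [FunLike.coe_add]
  exact pet_add_right (nice_cusp f) (nice_cusp g₁) (nice_cusp g₂)

theorem petC_conj (f g : CuspForm (Gamma0 N) 2) : conj (petC f g) = petC g f :=
  pet_conj N _ _

theorem petC_add_left (f₁ f₂ g : CuspForm (Gamma0 N) 2) :
    petC (f₁ + f₂) g = petC f₁ g + petC f₂ g := by
  rw [← petC_conj g, petC_add_right, map_add, petC_conj, petC_conj]

omit [NeZero N] in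
theorem petC_zero_right (f : CuspForm (Gamma0 N) 2) : petC f 0 = 0 := by
  unfold petC pet pint
  simp [petersson]

theorem petC_smul_int (n : ℤ) (f g : CuspForm (Gamma0 N) 2) :
    petC (n • f) g = petC f (n • g) := by
  unfold petC pet pint
  refine integral_congr_ae (Filter.Eventually.of_forall fun z => ?_)
  have h1 : ∀ h : CuspForm (Gamma0 N) 2, ((n • h : CuspForm (Gamma0 N) 2) : ℍ → ℂ) z
      = (n : ℂ) * h z := by
    intro h
    rw [← Int.cast_smul_eq_zsmul ℂ n h]
    simp
  simp only [petersson, h1, map_mul, map_intCast]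
  ring

theorem eq_zero_of_petC_self (f : CuspForm (Gamma0 N) 2) (h : petC f f = 0) : f = 0 := by
  have h1 := eq_zero_of_pet_self_eq_zero N (nice_cusp f) (cusp_slash_mapGL f) h
  exact DFunLike.coe_injective h1

/-- Self-adjoint endomorphisms of the space of cusp forms. -/
def IsSA (t : Module.End ℂ (CuspForm (Gamma0 N) 2)) : Prop :=
  ∀ f g : CuspForm (Gamma0 N) 2, petC (t f) g = petC f (t g)

theorem isSA_heckeTLin {p : ℕ} (hp : p.Prime) (hpN : ¬ p ∣ N) :
    IsSA (CuspForm.heckeTLin (N := N) 2 hp hpN) := by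
  intro f g
  have : Fact p.Prime := ⟨hp⟩
  unfold petC
  rw [CuspForm.coe_heckeTLin_apply, CuspForm.coe_heckeTLin_apply]
  exact pet_heckeT_comm hpN f g

theorem isSA_algebraMap (n : ℤ) :
    IsSA (algebraMap ℤ (Module.End ℂ (CuspForm (Gamma0 N) 2)) n) := by
  intro f g
  have h : ∀ h : CuspForm (Gamma0 N) 2,
      (algebraMap ℤ (Module.End ℂ (CuspForm (Gamma0 N) 2)) n) h = n • h := by
    intro h
    simp
  rw [h, h]
  exact petC_smul_int n f g

theorem IsSA.add {s t : Module.End ℂ (CuspForm (Gamma0 N) 2)} (hs : IsSA s) (ht : IsSA t) :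
    IsSA (s + t) := by
  intro f g
  rw [LinearMap.add_apply, LinearMap.add_apply, petC_add_left, petC_add_right, hs f g, ht f g]

omit [NeZero N] in
theorem IsSA.mul {s t : Module.End ℂ (CuspForm (Gamma0 N) 2)} (hs : IsSA s) (ht : IsSA t)
    (hc : s * t = t * s) : IsSA (s * t) := by
  intro f g
  have h1 : petC ((s * t) f) g = petC f ((t * s) g) := by
    rw [Module.End.mul_apply, Module.End.mul_apply, hs, ht]
  rw [h1, hc]

end

/-- **SS**: the anemic Hecke algebra of weight 2 and level `Γ₀(N)` is reduced. -/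
theorem heckeAlgebra_isReduced (N : ℕ) [NeZero N] (S : Set ℕ)
    (hNS : ∀ q : ℕ, q.Prime → q ∣ N → q ∈ S) : IsReduced (CuspForm.heckeAlgebra N 2 S) := by
  have hgen : ∀ t ∈ CuspForm.heckeGenerators N 2 S, IsSA t := by
    rintro t (⟨ℓ, hℓ, hℓN, -, rfl⟩ | ⟨q, hqN, hq, hqS, rfl⟩)
    · exact isSA_heckeTLin hℓ hℓN
    · exact absurd (hNS q hq hqN) hqS
  have hcomm : ∀ s t : Module.End ℂ (CuspForm (Gamma0 N) 2),
      s ∈ CuspForm.heckeAlgebra N 2 S → t ∈ CuspForm.heckeAlgebra N 2 S → s * t = t * s := by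
    intro s t hs ht
    have := mul_comm (⟨s, hs⟩ : CuspForm.heckeAlgebra N 2 S) ⟨t, ht⟩
    exact congrArg Subtype.val this
  have hall : ∀ t ∈ CuspForm.heckeAlgebra N 2 S, IsSA t := by
    intro t ht
    unfold CuspForm.heckeAlgebra at ht
    induction ht using Algebra.adjoin_induction with
    | mem x hx => exact hgen x hx
    | algebraMap r => exact isSA_algebraMap r
    | add x y hx hy ihx ihy => exact ihx.add ihy
    | mul x y hx hy ihx ihy => exact ihx.mul ihy (hcomm x y hx hy)
  rw [isReduced_iff_pow_one_lt 2 one_lt_two]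
  rintro ⟨t, ht⟩ h2
  have h3 : t * t = 0 := by
    have := congrArg Subtype.val h2
    simpa [pow_two] using this
  apply Subtype.ext
  show t = 0
  refine LinearMap.ext fun f => ?_
  apply eq_zero_of_petC_self
  rw [hall t ht, ← Module.End.mul_apply, h3, LinearMap.zero_apply]
  exact petC_zero_right _

end Fermat.Agent.S31.H862
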